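import Mathlib
import Fermat.Prelude.Thm_ModularForm_sturm_bound_Gamma0

set_option autoImplicit false

open UpperHalfPlane
open scoped MatrixGroups

namespace Fermat.Agent.S07.helper67

/-- The index of `Γ₀(N)` in `SL(2, ℤ)` is at most `N ^ 2` (crude bound via the first column
mod `N`). -/
theorem index_Gamma0_le (N : ℕ) [NeZero N] :
    (CongruenceSubgroup.Gamma0 N).index ≤ N ^ 2 := by
  classical
  have hcard : Nat.card (ZMod N × ZMod N) = N ^ 2 := by
    rw [Nat.card_prod, Nat.card_zmod, sq]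
  rw [← hcard, Subgroup.index]
  refine Nat.card_le_card_of_injective
    (fun q : SL(2, ℤ) ⧸ CongruenceSubgroup.Gamma0 N =>
      (((q.out 0 0 : ℤ) : ZMod N), ((q.out 1 0 : ℤ) : ZMod N))) ?_
  intro q q' h
  simp only [Prod.mk.injEq] at h
  obtain ⟨h0, h1⟩ := h
  rw [← QuotientGroup.out_eq' q, ← QuotientGroup.out_eq' q']
  rw [QuotientGroup.eq, CongruenceSubgroup.Gamma0_mem]
  set g := q.out with hg
  set g' := q'.out with hg'
  have hentry : (g⁻¹ * g') 1 0 = g 0 0 * g' 1 0 - g 1 0 * g' 0 0 := by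
    rw [Matrix.SpecialLinearGroup.coe_mul, Matrix.SpecialLinearGroup.coe_inv,
      Matrix.adjugate_fin_two, Matrix.mul_apply, Fin.sum_univ_two]
    simp
    ring
  rw [hentry]
  push_cast
  rw [h0, h1]
  ring

/-- Forget that a cusp form vanishes at the cusps. -/
def toModularForm {Γ : Subgroup (GL (Fin 2) ℝ)} {k : ℤ} (f : CuspForm Γ k) : ModularForm Γ k where
  toSlashInvariantForm := f.toSlashInvariantForm
  holo' := f.holo'
  bdd_at_cusps' := fun hc g hg => (f.zero_at_cusps' hc g hg).boundedAtFilter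

theorem coe_toModularForm {Γ : Subgroup (GL (Fin 2) ℝ)} {k : ℤ} (f : CuspForm Γ k) :
    (toModularForm f : ℍ → ℂ) = f := rfl

/-- A cusp form on `Γ₀(N)` of weight `k` with `k * [SL₂(ℤ) : Γ₀(N)] < 12` vanishes. -/
theorem cuspForm_eq_zero_of_small (N : ℕ) [NeZero N] {k : ℤ}
    (hk : (k * (CongruenceSubgroup.Gamma0 N).index).toNat / 12 = 0)
    (f : CuspForm (CongruenceSubgroup.Gamma0 N) k) : f = 0 := by
  have h1 : (1 : ℝ) ∈ (CongruenceSubgroup.Gamma0 N : Subgroup (GL (Fin 2) ℝ)).strictPeriods := by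
    simp [CongruenceSubgroup.strictPeriods_Gamma0]
  have key : toModularForm f = 0 := by
    refine ModularForm.sturm_bound_Gamma0 N (toModularForm f) ?_
    intro n hn
    rw [hk] at hn
    obtain rfl : n = 0 := by omega
    rw [coe_toModularForm]
    exact CuspFormClass.qExpansion_coeff_zero f one_pos h1
  ext z
  have := congrArg (fun F : ModularForm (CongruenceSubgroup.Gamma0 N) k => F z) key
  simpa [coe_toModularForm] using this

end Fermat.Agent.S07.helper67
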